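import Fermat.Agent.Gateway.EIS.Main
import Fermat.Agent.S27x.Theta.Surj

/-!
# P-S27 block A (A-EIS + A-Theta final): eigenfunctions for a general `Γ`, and `#Pic⁰(F)[m]`

`Γ`-general version of the cusp behaviour of `h_χ = E_χ / E_1` (`Gateway/EIS/HChi.lean`, helper72,
and `Gateway/EIS/Main.lean`): the hypothesis `Γ(N) ≤ Γ` is replaced by
`hT : ∀ g, g⁻¹ * T ^ N * g ∈ Γ` (true for every `Γ` of finite index for a suitable `N`, e.g. the
`lcm` of the cusp widths or `[SL(2, ℤ) : Γ]!`), which is all that the proof uses.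

Consequently, for a dictionary input `I : DictInputG Γ N F` with `PlaceCases I`:
`θ : Pic⁰(F)[m] ≃+ Hom_pe(Γ, μ_m)` (`thetaEquivG`) and
`card_torsion_eq_card_charPE : #Pic⁰(F)[m] = #charPE Γ μ_m` (helper90).
-/

set_option autoImplicit false

open UpperHalfPlane Complex
open scoped MatrixGroups

namespace Fermat.Agent.S27x.Theta

open Fermat.Agent.S24 Fermat.Agent.S24.CuspOrd MerFun Fermat.Agent.Gateway.Root AlgebraicCurve
open Fermat.Agent.Gateway.A2 Fermat.Agent.Gateway.A2.Count Fermat.Agent.Gateway.EIS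

section EIS

variable {Γ : Subgroup SL(2, ℤ)} {χ : Γ →* ℂˣ}

/-- `hT` in the form used below: `g T ^ N g⁻¹ ∈ Γ`. -/
theorem conj_T_zpow_mem_of {N : ℕ} (hT : ∀ g : SL(2, ℤ), g⁻¹ * ModularGroup.T ^ N * g ∈ Γ)
    (g : SL(2, ℤ)) : g * ModularGroup.T ^ (N : ℤ) * g⁻¹ ∈ Γ := by
  have := hT g⁻¹
  rwa [inv_inv, ← zpow_natCast] at this

/-- The weight of `E_χ` transported to the cusp `g` is invariant under `T ^ N`. -/
theorem slashWeight_T_zpow_slashWeight_rowWeight_of_conj (h : AdmChar Γ χ) {N : ℕ}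
    (hT : ∀ g : SL(2, ℤ), g⁻¹ * ModularGroup.T ^ N * g ∈ Γ) (g : SL(2, ℤ)) :
    slashWeight (ModularGroup.T ^ (N : ℤ)) (slashWeight g (rowWeight Γ χ)) =
      slashWeight g (rowWeight Γ χ) := by
  let δ : Γ := ⟨g * ModularGroup.T ^ (N : ℤ) * g⁻¹, conj_T_zpow_mem_of hT g⟩
  have hχδ : χ δ = 1 := by
    refine h.par δ ?_
    show (((g * ModularGroup.T ^ (N : ℤ) * g⁻¹ : SL(2, ℤ)) :
      Matrix (Fin 2) (Fin 2) ℤ).trace) ^ 2 = 4
    rw [trace_conj_T_zpow]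
    norm_num
  have h1 : g * ModularGroup.T ^ (N : ℤ) = (δ : SL(2, ℤ)) * g := by
    show g * ModularGroup.T ^ (N : ℤ) = g * ModularGroup.T ^ (N : ℤ) * g⁻¹ * g
    rw [inv_mul_cancel_right]
  rw [← slashWeight_mul, h1, slashWeight_mul, slashWeight_rowWeight h.trivOnUnip, hχδ]
  simp

theorem eisHol_slashWeight_mem_cuspFnAlg_of_conj (h : AdmChar Γ χ) {N : ℕ}
    (hT : ∀ g : SL(2, ℤ), g⁻¹ * ModularGroup.T ^ N * g ∈ Γ) (g : SL(2, ℤ)) :
    eisHol (slashWeight g (rowWeight Γ χ)) ∈ cuspFnAlg N :=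
  eisHol_mem_cuspFnAlg (h.bddWeight.slashWeight g) N
    (slashWeight_T_zpow_slashWeight_rowWeight_of_conj h hT g)

/-- **Behaviour at the cusps, general `Γ`**: every `SL(2, ℤ)`-translate of `h_χ` is a quotient of
`N`-periodic holomorphic functions that are bounded at `i∞`, as soon as all conjugates of `T ^ N`
lie in `Γ`. -/
theorem isCuspMer_smul_hChi_of_conj (h : AdmChar Γ χ) {N : ℕ}
    (hT : ∀ g : SL(2, ℤ), g⁻¹ * ModularGroup.T ^ N * g ∈ Γ) (g : SL(2, ℤ)) :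
    IsCuspMer N (g • hChi Γ χ) := by
  obtain ⟨h1, h2⟩ := smul_hChi_eq h g
  exact ⟨_, _, eisHol_slashWeight_mem_cuspFnAlg_of_conj h hT g⁻¹,
    eisHol_slashWeight_mem_cuspFnAlg_of_conj (AdmChar.one Γ) hT g⁻¹, h2, h1⟩

variable {n : ℕ} [NeZero n]

theorem isCuspMer_smul_hChiPE_of_conj {N : ℕ}
    (hT : ∀ g : SL(2, ℤ), g⁻¹ * ModularGroup.T ^ N * g ∈ Γ)
    (χ : charPE Γ (rootsOfUnity n ℂ)) (g : SL(2, ℤ)) : IsCuspMer N (g • hChiPE χ) :=
  isCuspMer_smul_hChi_of_conj (admChar_unitsChar χ) hT g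

/-- **A-EIS, final export.**  For every `χ ∈ charPE Γ μ_n` there is an eigenfunction. -/
theorem exists_isEigenFun_of_conj {N : ℕ}
    (hT : ∀ g : SL(2, ℤ), g⁻¹ * ModularGroup.T ^ N * g ∈ Γ)
    (χ : Γ →* rootsOfUnity n ℂ) (hχ : χ ∈ charPE Γ (rootsOfUnity n ℂ)) :
    ∃ h : MerFun, IsEigenFun N χ h :=
  ⟨hChiPE ⟨χ, hχ⟩, hChiPE_ne_zero ⟨χ, hχ⟩, inv_smul_hChiPE ⟨χ, hχ⟩,
    isCuspMer_smul_hChiPE_of_conj hT ⟨χ, hχ⟩⟩

end EIS

section Final

variable {Γ : Subgroup SL(2, ℤ)} {N : ℕ} {F : Type*} [Field F] [Algebra ℂ F]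

/-- the eigenfunctions required by `theta_surjective`, unconditionally. -/
theorem exists_isEigenFun (J : DictInputG Γ N F) (m : ℕ) [NeZero m]
    (χ : Γ →* rootsOfUnity m ℂ) (hχ : χ ∈ charPE Γ (rootsOfUnity m ℂ)) :
    ∃ h : MerFun, IsEigenFun N χ h :=
  exists_isEigenFun_of_conj J.conj_T_pow_mem χ hχ

variable {J : DictInputG Γ N F} (m : ℕ) [NeZero m]

theorem theta_bijective (hN : 0 < N) (hP : PlaceCases J) [HasPrincipalDivisors ℂ F] :
    Function.Bijective (theta (m := m) J hN) :=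
  ⟨theta_injective J hN, theta_surjective hN hP (exists_isEigenFun J m)⟩

/-- **`θ` as an isomorphism `Pic⁰(F)[m] ≃ Hom_pe(Γ, μ_m)`.** -/
noncomputable def thetaEquivG (hN : 0 < N) (hP : PlaceCases J) [HasPrincipalDivisors ℂ F] :
    Pic0.torsion ℂ F m ≃+ Additive (charPE Γ (rootsOfUnity m ℂ)) :=
  thetaEquiv hN hP (exists_isEigenFun J m)

theorem thetaEquivG_apply (hN : 0 < N) (hP : PlaceCases J) [HasPrincipalDivisors ℂ F]
    (x : Pic0.torsion ℂ F m) : thetaEquivG m hN hP x = theta J hN x := rfl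

/-- **`#Pic⁰(F)[m] = #Hom_pe(Γ, μ_m)`** for a dictionary input with classified places. -/
theorem card_torsion_eq_card_charPE (hN : 0 < N) (hP : PlaceCases J)
    [HasPrincipalDivisors ℂ F] :
    Nat.card (Pic0.torsion ℂ F m) = Nat.card (charPE Γ (rootsOfUnity m ℂ)) :=
  card_torsion_eq hN hP (exists_isEigenFun J m)

end Final

end Fermat.Agent.S27x.Theta
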