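import Fermat.Agent.S27x.Theta.Char

/-!
# P-S27 block A (A-Theta), part 2: the map `θ : Pic⁰(F)[m] → Hom_pe(Γ, μ_m)` and its injectivity

`Γ`-general copy of `Gateway/Theta/Main.lean` (helper6, P-GATEWAY A1), for a dictionary input
`I : DictInputG Γ N F` (helper90).

For a class `x` with `m x = 0` choose a divisor `D` of degree `0` in `x` and `f` with
`div f = m D`; then `I.emb f = h ^ m` for some `h : MerFun`, and `θ x` is the character `χ` with
`h (γ z) = χ(γ) h (z)`, i.e. `γ⁻¹ • h = cst (χ γ) * h`.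
-/

set_option autoImplicit false

open Complex UpperHalfPlane
open scoped MatrixGroups

namespace Fermat.Agent.S27x.Theta

open Fermat.Agent.S24 MerFun CuspOrd Fermat.Agent.Gateway.Root AlgebraicCurve CongruenceSubgroup
open Fermat.Agent.Gateway.A2 Fermat.Agent.Gateway.A2.Count Fermat.Agent.Gateway.Theta

variable {Γ : Subgroup SL(2, ℤ)} {N : ℕ} {F : Type*} [Field F] [Algebra ℂ F]
  (I : DictInputG Γ N F)

/-- Every `m`-torsion class has a root datum. -/
theorem exists_isRoot {m : ℕ} (hm : 0 < m) (x : Pic0 ℂ F) (hx : x ∈ Pic0.torsion ℂ F m) :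
    ∃ (D : Divisor.degZero (K := ℂ) (F := F)) (f : F) (h : MerFun),
      Pic0.mk D = x ∧ IsRootG I m (⇑(D : Divisor ℂ F)) f h := by
  obtain ⟨D, rfl⟩ := Pic0.mk_surjective x
  rw [Pic0.mem_torsion] at hx
  have h1 : Pic0.mk ((m : ℤ) • D) = 0 := hx
  have h2 : ((m : ℤ) • D) ∈
      (Divisor.principal (K := ℂ) (F := F)).addSubgroupOf (Divisor.degZero (K := ℂ) (F := F)) :=
    (QuotientAddGroup.eq_zero_iff _).1 h1
  rw [AddSubgroup.mem_addSubgroupOf] at h2
  obtain ⟨f, hf, hD⟩ := h2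
  have hdiv : ∀ v : Place ℂ F, (m : ℤ) * (D : Divisor ℂ F) v = v.ord f := by
    intro v
    rw [← hD v]
    simp
  have hdvd : ∀ τ : ℍ, (m : ℤ) ∣ ordMer τ (I.emb f) := by
    intro τ
    obtain ⟨v, c, -, hv⟩ := I.point τ
    rw [← hv f hf, ← hdiv v]
    exact ⟨(c : ℤ) * (D : Divisor ℂ F) v, by ring⟩
  obtain ⟨h, hh⟩ := exists_pow_eq hm (I.emb f) (I.emb_ne_zero hf) hdvd
  exact ⟨D, f, h, rfl, ⟨hf, hdiv, hh⟩⟩


namespace IsRootG

variable {I} {m : ℕ} {D D' : Place ℂ F → ℤ} {f f' : F} {h h' : MerFun}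

theorem one : IsRootG I m (0 : Place ℂ F → ℤ) 1 1 :=
  ⟨one_ne_zero, fun v => by simp, by simp⟩

theorem mul (H : IsRootG I m D f h) (H' : IsRootG I m D' f' h') :
    IsRootG I m (D + D') (f * f') (h * h') :=
  ⟨mul_ne_zero H.ne_zero H'.ne_zero, fun v => by
    rw [Pi.add_apply, mul_add, H.div_eq, H'.div_eq, v.ord_mul H.ne_zero H'.ne_zero],
    by rw [mul_pow, H.pow_eq, H'.pow_eq, map_mul]⟩

theorem char_one [NeZero m] (H : IsRootG I m (0 : Place ℂ F → ℤ) 1 1) : H.char = 1 := by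
  rw [char_eq_iff]
  intro γ
  simp

theorem char_mul [NeZero m] (H : IsRootG I m D f h) (H' : IsRootG I m D' f' h')
    (H'' : IsRootG I m (D + D') (f * f') (h * h')) : H''.char = H.char * H'.char := by
  rw [char_eq_iff]
  intro γ
  rw [smul_mul', H.char_spec γ, H'.char_spec γ, MonoidHom.mul_apply]
  push_cast
  rw [cst_mul]
  ring

/-- If `h' = k h` with `k` invariant under `Γ`, then the characters agree. -/
theorem char_eq_of_eq_mul [NeZero m] (H : IsRootG I m D f h) (H' : IsRootG I m D' f' h')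
    (k : MerFun) (hk : ∀ γ ∈ Γ, γ • k = k) (hh' : h' = k * h) : H'.char = H.char := by
  rw [char_eq_iff]
  intro γ
  rw [hh', smul_mul', hk _ (Γ.inv_mem γ.2), H.char_spec γ]
  ring

/-- Root data of linearly equivalent divisors have the same character. -/
theorem char_eq_of_sub_principal [NeZero m] (H : IsRootG I m D f h) (H' : IsRootG I m D' f' h')
    (g : F) (hg : g ≠ 0) (hDD' : ∀ v : Place ℂ F, D' v = D v + v.ord g) : H'.char = H.char := by
  have hm : 0 < m := NeZero.pos m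
  have hgm : g ^ m ≠ 0 := pow_ne_zero m hg
  set φ : F := f' / (f * g ^ m) with hφ
  have hφ0 : φ ≠ 0 := div_ne_zero H'.ne_zero (mul_ne_zero H.ne_zero hgm)
  have hord : ∀ v : Place ℂ F, v.ord φ = 0 := by
    intro v
    have e1 : v.ord (g ^ m) = (m : ℤ) * v.ord g := by
      rw [← zpow_natCast, v.ord_zpow]
    rw [hφ, div_eq_mul_inv, v.ord_mul H'.ne_zero (inv_ne_zero (mul_ne_zero H.ne_zero hgm)),
      v.ord_inv, v.ord_mul H.ne_zero hgm, e1, ← H.div_eq v, ← H'.div_eq v, hDD' v]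
    ring
  obtain ⟨c, hc⟩ := I.const_of_ord φ hφ0 hord
  have hc0 : c ≠ 0 := by
    rintro rfl
    rw [map_zero] at hc
    exact hφ0 hc
  obtain ⟨c₁, hc₁⟩ := IsAlgClosed.exists_pow_nat_eq c hm
  have hc₁0 : c₁ ≠ 0 := by
    rintro rfl
    rw [zero_pow hm.ne'] at hc₁
    exact hc0 hc₁.symm
  have hf' : f' = algebraMap ℂ F c * (f * g ^ m) := by
    rw [← hc, hφ, div_mul_cancel₀ _ (mul_ne_zero H.ne_zero hgm)]
  set k₀ : MerFun := cst c₁ * I.emb g with hk₀
  have hk₀0 : k₀ ≠ 0 := mul_ne_zero (cst_ne_zero hc₁0) (I.emb_ne_zero hg)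
  have hpow : h' ^ m = (k₀ * h) ^ m := by
    rw [H'.pow_eq, hf', map_mul, map_mul, map_pow, I.emb_const, ← hc₁, cst_pow, mul_pow, hk₀,
      mul_pow, H.pow_eq]
    ring
  have hkh0 : k₀ * h ≠ 0 := mul_ne_zero hk₀0 (H.root_ne_zero hm)
  obtain ⟨ζ, ⟨-, hζ⟩, -⟩ := existsUnique_cst_mul hm hkh0 hpow
  refine H.char_eq_of_eq_mul H' (cst ζ * k₀) ?_ (by rw [hζ]; ring)
  intro γ hγ
  rw [hk₀, smul_mul', smul_mul', sl_smul_cst, sl_smul_cst, I.emb_fixed γ hγ]

/-- A root with trivial character comes from the function field, and `D` is its divisor. -/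
theorem exists_ord_eq_of_char_eq_one [NeZero m] (H : IsRootG I m D f h)
    (hχ : H.char = 1) : ∃ g : F, g ≠ 0 ∧ ∀ v : Place ℂ F, D v = v.ord g := by
  have hm : 0 < m := NeZero.pos m
  have hinv : ∀ γ ∈ Γ, γ • h = h := by
    intro γ hγ
    have := H.char_spec ⟨γ⁻¹, Γ.inv_mem hγ⟩
    rw [hχ] at this
    simpa using this
  have hcusp : ∀ g : SL(2, ℤ), IsCuspMer N (g • h) := by
    intro g
    have hpow : (g • h) ^ m = g • I.emb f := by rw [← smul_pow', H.pow_eq]
    have hF : IsCuspMer N ((g • h) ^ m) := by rw [hpow]; exact I.isCuspMer f g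
    refine isCuspMer_of_T_pow_smul_eq hm (isCuspMer_of_pow hm hF) ?_
    have : ModularGroup.T ^ N • (g • h) = g • ((g⁻¹ * ModularGroup.T ^ N * g) • h) := by
      rw [← mul_smul, ← mul_smul]
      congr 1
      group
    rw [this, hinv _ (I.conj_T_pow_mem g)]
  obtain ⟨g₀, hg₀⟩ := I.range h hinv hcusp
  have hg₀0 : g₀ ≠ 0 := by
    rintro rfl
    rw [map_zero] at hg₀
    exact H.root_ne_zero hm hg₀.symm
  have hpow : g₀ ^ m = f := by
    apply I.emb_injective
    rw [map_pow, hg₀, H.pow_eq]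
  refine ⟨g₀, hg₀0, fun v => ?_⟩
  have e1 : v.ord (g₀ ^ m) = (m : ℤ) * v.ord g₀ := by
    rw [← zpow_natCast, v.ord_zpow]
  have e2 := H.div_eq v
  rw [← hpow, e1] at e2
  exact mul_left_cancel₀ (Int.natCast_ne_zero.2 hm.ne') e2

end IsRootG

section theta

variable {m : ℕ} [NeZero m]

variable {I} in
/-- Two root data for the same class have the same character. -/
theorem char_eq_of_mk_eq {D D' : Divisor.degZero (K := ℂ) (F := F)} {f f' : F} {h h' : MerFun}
    (H : IsRootG I m (⇑(D : Divisor ℂ F)) f h) (H' : IsRootG I m (⇑(D' : Divisor ℂ F)) f' h')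
    (hDD' : Pic0.mk D = Pic0.mk D') : H'.char = H.char := by
  have h1 : -D + D' ∈
      (Divisor.principal (K := ℂ) (F := F)).addSubgroupOf (Divisor.degZero (K := ℂ) (F := F)) :=
    QuotientAddGroup.eq.1 hDD'
  rw [AddSubgroup.mem_addSubgroupOf] at h1
  obtain ⟨g, hg, hD⟩ := h1
  refine H.char_eq_of_sub_principal H' g hg (fun v => ?_)
  rw [← hD v]
  simp

variable (m)

/-- The character attached to an `m`-torsion class, as a plain function. -/
theorem existsUnique_char (x : Pic0.torsion ℂ F m) :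
    ∃! χ : Γ →* rootsOfUnity m ℂ,
      ∃ (D : Divisor.degZero (K := ℂ) (F := F)) (f : F) (h : MerFun)
        (H : IsRootG I m (⇑(D : Divisor ℂ F)) f h), Pic0.mk D = (x : Pic0 ℂ F) ∧ H.char = χ := by
  obtain ⟨D, f, h, hD, H⟩ := exists_isRoot I (NeZero.pos m) x.1 x.2
  refine ⟨H.char, ⟨D, f, h, H, hD, rfl⟩, ?_⟩
  rintro χ ⟨D', f', h', H', hD', rfl⟩
  exact char_eq_of_mk_eq H H' (hD.trans hD'.symm)

/-- The character attached to an `m`-torsion class. -/
noncomputable def thetaFun (x : Pic0.torsion ℂ F m) : Γ →* rootsOfUnity m ℂ :=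
  Classical.choose (existsUnique_char I m x).exists

variable {m}

theorem thetaFun_eq (x : Pic0.torsion ℂ F m) {D : Divisor.degZero (K := ℂ) (F := F)} {f : F}
    {h : MerFun} (H : IsRootG I m (⇑(D : Divisor ℂ F)) f h) (hD : Pic0.mk D = (x : Pic0 ℂ F)) :
    thetaFun I m x = H.char := by
  obtain ⟨D', f', h', H', hD', hχ⟩ := Classical.choose_spec (existsUnique_char I m x).exists
  rw [thetaFun, ← hχ]
  exact char_eq_of_mk_eq H H' (hD.trans hD'.symm)

theorem thetaFun_mem (hN : 0 < N) (x : Pic0.torsion ℂ F m) :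
    thetaFun I m x ∈ charPE Γ (rootsOfUnity m ℂ) := by
  obtain ⟨D, f, h, hD, H⟩ := exists_isRoot I (NeZero.pos m) x.1 x.2
  rw [thetaFun_eq I x H hD]
  exact H.char_mem_charPE hN

theorem thetaFun_zero : thetaFun I m (0 : Pic0.torsion ℂ F m) = 1 := by
  have H : IsRootG I m (⇑((0 : Divisor.degZero (K := ℂ) (F := F)) : Divisor ℂ F)) 1 1 := by
    have : (⇑((0 : Divisor.degZero (K := ℂ) (F := F)) : Divisor ℂ F)) = 0 := by
      ext v; simp
    rw [this]
    exact IsRootG.one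
  rw [thetaFun_eq I 0 H (by simp)]
  rw [IsRootG.char_eq_iff]
  intro γ
  simp

theorem thetaFun_add (x y : Pic0.torsion ℂ F m) :
    thetaFun I m (x + y) = thetaFun I m x * thetaFun I m y := by
  obtain ⟨D, f, h, hD, H⟩ := exists_isRoot I (NeZero.pos m) x.1 x.2
  obtain ⟨D', f', h', hD', H'⟩ := exists_isRoot I (NeZero.pos m) y.1 y.2
  have e : (⇑((D + D' : Divisor.degZero (K := ℂ) (F := F)) : Divisor ℂ F)) =
      ⇑(D : Divisor ℂ F) + ⇑(D' : Divisor ℂ F) := by
    ext v; simp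
  have H'' : IsRootG I m (⇑((D + D' : Divisor.degZero (K := ℂ) (F := F)) : Divisor ℂ F))
      (f * f') (h * h') := by
    rw [e]; exact H.mul H'
  have hD'' : Pic0.mk (D + D') = ((x + y : Pic0.torsion ℂ F m) : Pic0 ℂ F) := by
    rw [Pic0.mk_add, hD, hD']; rfl
  rw [thetaFun_eq I (x + y) H'' hD'', thetaFun_eq I x H hD, thetaFun_eq I y H' hD']
  rw [IsRootG.char_eq_iff]
  intro γ
  rw [smul_mul', H.char_spec γ, H'.char_spec γ, MonoidHom.mul_apply]
  push_cast
  rw [cst_mul]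
  ring

/-- **The map `θ`.**  `J_ℂ[m] → Hom_pe(Γ, μ_m)`. -/
noncomputable def theta (hN : 0 < N) :
    Pic0.torsion ℂ F m →+ Additive (charPE Γ (rootsOfUnity m ℂ)) where
  toFun x := Additive.ofMul ⟨thetaFun I m x, thetaFun_mem I hN x⟩
  map_zero' := by
    rw [← ofMul_one]
    congr 1
    exact Subtype.ext (thetaFun_zero I)
  map_add' x y := by
    rw [← ofMul_mul]
    congr 1
    exact Subtype.ext (thetaFun_add I x y)

theorem theta_apply (hN : 0 < N) (x : Pic0.torsion ℂ F m) :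
    ((Additive.toMul (theta I hN x) : charPE Γ (rootsOfUnity m ℂ)) :
      Γ →* rootsOfUnity m ℂ) = thetaFun I m x := rfl


/-- **Injectivity of `θ`.** -/
theorem theta_injective (hN : 0 < N) : Function.Injective (theta (m := m) I hN) := by
  rw [injective_iff_map_eq_zero]
  intro x hx
  have h1 : thetaFun I m x = 1 := by
    have := congrArg (fun y => ((Additive.toMul y : charPE Γ (rootsOfUnity m ℂ)) :
      Γ →* rootsOfUnity m ℂ)) hx
    simpa [theta_apply] using this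
  obtain ⟨D, f, h, hD, H⟩ := exists_isRoot I (NeZero.pos m) x.1 x.2
  rw [thetaFun_eq I x H hD] at h1
  obtain ⟨g, hg, hDg⟩ := H.exists_ord_eq_of_char_eq_one h1
  have hmem : D ∈ (Divisor.principal (K := ℂ) (F := F)).addSubgroupOf
      (Divisor.degZero (K := ℂ) (F := F)) := by
    rw [AddSubgroup.mem_addSubgroupOf]
    exact ⟨g, hg, hDg⟩
  have h0 : Pic0.mk D = 0 := (QuotientAddGroup.eq_zero_iff _).2 hmem
  apply Subtype.ext
  rw [← hD, h0]
  rfl

end theta

end Fermat.Agent.S27x.Theta
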